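/-
S55 / L-a (P6/(S1) limit half), part A (helper41): from the FINITE-LEVEL output of leaf 33
(`p`-primary vanishing of `H¹(H, Res_H B)` for subgroups `H` of the finite Galois groups, in
Mathlib's `groupCohomology`, the shape of `Adapt77.HcycGlue.res_pPart_of_out`) to the LEVEL
statement consumed by `S1_67.Level` / `CDArith63.Formation (F1)(p)`:
the `p`-primary part of the level `H¹` of `Res_V A` vanishes for an open subgroup `V`.

Everything is generic in the group `Γ`, its level structure `𝒰` and the smooth module `A`;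
the finite levels are presented by helper79's invariant descent data `(π, B, e)`.
-/
import Fermat.Agent.S55.CS79.Primary
import Fermat.Agent.S55.CS79.Restrict

set_option autoImplicit false

universe u

open CategoryTheory groupCohomology

namespace Fermat.Agent.S55.S1Limit41.H1Cofinal

open Fermat.Agent.S55.Profin15 Fermat.Agent.S55.CD3
open Fermat.Agent.S55.CS79.InvDescent Fermat.Agent.S55.CS79.FinLevel
open Fermat.Agent.S55.CS79.Primary Fermat.Agent.S55.CS79.Restrict

section Cocycle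

variable {k Q : Type u} [CommRing k] [Group Q] (B : Rep.{u} k Q)

/-- the `p`-primary vanishing of Mathlib's `H¹(Q, B)` in cocycle form (the shape of
`CS79.Primary.CofinalH1PrimaryVanishing`) -/
theorem mem_coboundaries₁_of_primary (p : ℕ)
    (h : ∀ x : groupCohomology B 1, (∃ n : ℕ, p ^ n • x = 0) → x = 0)
    (c : Q → B) (hc : c ∈ cocycles₁ B) (hn : ∃ n : ℕ, p ^ n • c ∈ coboundaries₁ B) :
    c ∈ coboundaries₁ B := by
  obtain ⟨n, hn⟩ := hn
  have h0 : (H1π B).hom ⟨c, hc⟩ = 0 := by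
    apply h
    refine ⟨n, ?_⟩
    rw [← map_nsmul]
    exact (H1π_eq_zero_iff (p ^ n • (⟨c, hc⟩ : cocycles₁ B))).2 hn
  exact (H1π_eq_zero_iff (⟨c, hc⟩ : cocycles₁ B)).1 h0

end Cocycle

variable {k Γ : Type u} [CommRing k] [Group Γ]

/-- **the finite-level input of (L-a)/(F1)(p)**: below every level contained in `V` there is a
level `W'` with an invariant descent datum `(π, B, e)` of `A` (`ker π = W'`,
`B = A^{W'}` as a module over the finite group `Q = Γ ⧸ W'`) such that the `p`-primary part of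
`H¹(π(V), Res B)` vanishes.  For `A = C_S`, `π = resL L'`, `B = C_S(L')` this is the output of
leaf 33 for the subgroup `π(V) = Gal(L'/L_V)` of `Gal(L'/ℚ)`. -/
def FiniteLevelH1 (𝒰 : LevelStr Γ) (p : ℕ) (A : Rep.{u} k Γ) (V : Subgroup Γ) : Prop :=
  ∀ W ∈ 𝒰.levels, W ≤ V → ∃ W' ∈ 𝒰.levels, W' ≤ W ∧
    ∃ (Q : Type u) (_ : Group Q) (π : Γ →* Q) (B : Rep.{u} k Q) (e : B →ₗ[k] A),
      IsInvDescent A π B e ∧ Function.Surjective π ∧ π.ker = W' ∧
      ∀ x : groupCohomology (Rep.res (V.map π).subtype B) 1, (∃ n : ℕ, p ^ n • x = 0) → x = 0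

variable {𝒰 : LevelStr Γ} {A : Rep.{u} k Γ} {V : Subgroup Γ}

/-- the finite-level input gives helper79's cofinality hypothesis over the restricted level
structure of `V` -/
theorem cofinalH1PrimaryVanishing_res (hV : IsOpenSub 𝒰 V) (p : ℕ)
    (h : FiniteLevelH1 𝒰 p A V) :
    CofinalH1PrimaryVanishing (restrictLevels 𝒰 V hV) p (Rep.res V.subtype A) := by
  rintro _ ⟨W, hW, hWV, rfl⟩
  obtain ⟨W', hW', hle, Q, _, π, B, e, hdesc, hπ, hker, hvan⟩ := h W hW hWV
  have hW'V : W' ≤ V := hle.trans hWV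
  refine ⟨W'.subgroupOf V, subgroupOf_mem_restrictLevels hV hW' hW'V, ?_, ↥(V.map π), inferInstance,
    resHom π V, Rep.res (V.map π).subtype B, e, isInvDescent_res hdesc V (hker.le.trans hW'V),
    resHom_surjective π V, ?_, ?_⟩
  · intro s hs
    rw [Subgroup.mem_subgroupOf] at hs ⊢
    exact hle hs
  · rw [resHom_ker, hker]
  · exact mem_coboundaries₁_of_primary _ p hvan

/-- **(L-a)(A)** the `p`-primary part of the level `H¹` of `Res_V A` vanishes as soon as the
`p`-primary parts of the finite-level groups `H¹(π(V), Res B)` vanish cofinally. -/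
theorem h1PrimaryVanishes_res (hA : 𝒰.IsSmooth A) (hV : IsOpenSub 𝒰 V) (p : ℕ)
    (h : FiniteLevelH1 𝒰 p A V) :
    H1PrimaryVanishes (restrictLevels 𝒰 V hV) p (Rep.res V.subtype A) :=
  h1PrimaryVanishes_of_cofinal (isSmooth_res hA hV) p (cofinalH1PrimaryVanishing_res hV p h)

/-- the same in the binder shape of `ClassLimit72.H1_primary_eq_zero` (`hH1C`) -/
theorem H1_primary_eq_zero_res (hA : 𝒰.IsSmooth A) (hV : IsOpenSub 𝒰 V) (p : ℕ)
    (h : FiniteLevelH1 𝒰 p A V)
    (c : (restrictLevels 𝒰 V hV).H1 (Rep.res V.subtype A)) (n : ℕ) (hc : p ^ n • c = 0) :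
    c = 0 :=
  h1PrimaryVanishes_res hA hV p h c ⟨n, hc⟩

/-- the case `V = Γ` without restriction -/
theorem h1PrimaryVanishes_of_finiteLevel (hA : 𝒰.IsSmooth A) (p : ℕ)
    (h : ∀ W ∈ 𝒰.levels, ∃ W' ∈ 𝒰.levels, W' ≤ W ∧
      ∃ (Q : Type u) (_ : Group Q) (π : Γ →* Q) (B : Rep.{u} k Q) (e : B →ₗ[k] A),
        IsInvDescent A π B e ∧ Function.Surjective π ∧ π.ker = W' ∧
        ∀ x : groupCohomology B 1, (∃ n : ℕ, p ^ n • x = 0) → x = 0) :
    H1PrimaryVanishes 𝒰 p A := by
  refine h1PrimaryVanishes_of_cofinal hA p ?_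
  intro W hW
  obtain ⟨W', hW', hle, Q, _, π, B, e, hdesc, hπ, hker, hvan⟩ := h W hW
  exact ⟨W', hW', hle, Q, inferInstance, π, B, e, hdesc, hπ, hker,
    mem_coboundaries₁_of_primary _ p hvan⟩

end Fermat.Agent.S55.S1Limit41.H1Cofinal
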