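/-
S55 / L-a (P6/(S1) limit half), part B (helper41): the three class-formation inputs of
`S1_67.Level` (`hC1`, `hinvC`, `hrec`) for the module `C' = J/E` from the same statements for the
TRUE class module `C` (`coker (K → J × I)`, the module for which leaves 33/35 produce a class
formation), along a short exact sequence `0 → C' → C → Cl → 0` with `Cl` torsion of order prime
to `p` (helper72 `ClassLimit72`, helper79 `CS79.ClassSeq`), and the resulting forms of the two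
halves of (S1).

Generic in the group `G` and its level structure (in the application `G = ↥V`,
`𝒰 = CD3.restrictLevels (globalLevels S) V hV`, all sequences restricted by
`LevelStr.ShortExact.res V.subtype`).
-/
import Fermat.Agent.S55.ClassLimit72
import Fermat.Agent.S55.S1_67.Level

set_option autoImplicit false

universe u

open CategoryTheory groupCohomology

namespace Fermat.Agent.S55.S1Limit41.Transfer

open Fermat.Agent.S55.Profin15 Fermat.Agent.S55.Profin15.LevelStr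
open Fermat.Agent.S55.ClassLimit72

variable {k G : Type u} [CommRing k] [Group G] (𝒰 : LevelStr G) {p : ℕ}
variable {J C' C Cl : Rep.{u} k G} {π' : J →ₗ[k] C'} {φ : C' →ₗ[k] C} {ψ : C →ₗ[k] Cl}

/-- **`hC1`** of `S1_67.Level.sha2_iff` for `C'` from the `p`-primary vanishing of level `H¹(C)`
(leaf 33 through `S1Limit41.H1Cofinal`). -/
theorem hC1_of_class (h : ShortExact φ ψ) (hC : 𝒰.IsSmooth C) (hCl : IsPrimeToP p Cl)
    (hH1C : ∀ (c : 𝒰.H1 C) (n : ℕ), p ^ n • c = 0 → c = 0)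
    (c : 𝒰.H1 C') (hc : p • c = 0) : c = 0 :=
  H1_primary_eq_zero 𝒰 h hC hCl hH1C c 1 (by rwa [pow_one])

/-- the `p`-primary form of `hC1` (the shape `(F1)(p)` of `CDArith63.FormationP`) -/
theorem hC1_primary_of_class (h : ShortExact φ ψ) (hC : 𝒰.IsSmooth C) (hCl : IsPrimeToP p Cl)
    (hH1C : ∀ (c : 𝒰.H1 C) (n : ℕ), p ^ n • c = 0 → c = 0)
    (c : 𝒰.H1 C') (n : ℕ) (hc : p ^ n • c = 0) : c = 0 :=
  H1_primary_eq_zero 𝒰 h hC hCl hH1C c n hc

variable {T : Type*} [AddCommGroup T]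

/-- the invariant map of `C'`: the invariant map of the class module composed with
`H²(C') → H²(C)` -/
noncomputable def invC' (h : ShortExact φ ψ) (invC : 𝒰.H2 C →+ T) : 𝒰.H2 C' →+ T :=
  invC.comp (𝒰.H2map φ h.equivariant_left).toAddMonoidHom

@[simp] theorem invC'_apply (h : ShortExact φ ψ) (invC : 𝒰.H2 C →+ T) (x : 𝒰.H2 C') :
    invC' 𝒰 h invC x = invC (𝒰.H2map φ h.equivariant_left x) := rfl

/-- **`hinvC`** for `C'` (`p`-primary form): `invC'` is injective on `p`-primary classes as soon as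
`invC` is (leaf 35 through `LimDesc99.InvSystem.lim_eq_zero_of_primary`). -/
theorem hinvC_primary_of_class (h : ShortExact φ ψ) (hC : 𝒰.IsSmooth C) (hCl : IsPrimeToP p Cl)
    (invC : 𝒰.H2 C →+ T)
    (hinj : ∀ (y : 𝒰.H2 C) (n : ℕ), p ^ n • y = 0 → invC y = 0 → y = 0)
    (x : 𝒰.H2 C') (n : ℕ) (hx : p ^ n • x = 0) (h0 : invC' 𝒰 h invC x = 0) : x = 0 := by
  apply H2map_eq_zero_of_primary 𝒰 h hC hCl x n hx
  apply hinj _ n _ h0
  rw [← map_nsmul, hx, map_zero]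

/-- **`hinvC`** of `S1_67.Level.range_loc_iff'` for `C'`. -/
theorem hinvC_of_class (h : ShortExact φ ψ) (hC : 𝒰.IsSmooth C) (hCl : IsPrimeToP p Cl)
    (invC : 𝒰.H2 C →+ T)
    (hinj : ∀ (y : 𝒰.H2 C) (n : ℕ), p ^ n • y = 0 → invC y = 0 → y = 0)
    (x : 𝒰.H2 C') (hx : p • x = 0) (h0 : invC' 𝒰 h invC x = 0) : x = 0 :=
  hinvC_primary_of_class 𝒰 h hC hCl invC hinj x 1 (by rwa [pow_one]) h0

variable {W : Type*} [Fintype W] {YE : W → Type*} [∀ w, AddCommGroup (YE w)]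

/-- **`hrec`** of `S1_67.Level.range_loc_iff'` for `C'` from reciprocity for the class module:
`invC (H²(φ ∘ π') y) = ∑_w inv_w (loc_w y)`. -/
theorem hrec_of_class (h : ShortExact φ ψ) (hπ' : IsEquivariant π') (invC : 𝒰.H2 C →+ T)
    (inv : ∀ w, YE w →+ T) (locJ : ∀ w, 𝒰.H2 J →+ YE w)
    (hrecC : ∀ y : 𝒰.H2 J,
      invC (𝒰.H2map (φ ∘ₗ π') (hπ'.comp h.equivariant_left) y) = ∑ w, inv w (locJ w y))
    (y : 𝒰.H2 J) :
    invC' 𝒰 h invC (𝒰.H2map π' hπ' y) = ∑ w, inv w (locJ w y) := by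
  rw [invC'_apply, ← H2map_comp]
  exact hrecC y

/-! ### the two halves of (S1) with the class-formation inputs stated for the class module -/

section S1

variable {Z E : Rep.{u} k G} {ι : Z →ₗ[k] E} {pw : E →ₗ[k] E} {i : E →ₗ[k] J}
variable {YZ : W → Type*} [∀ w, AddCommGroup (YZ w)]
variable (κ : ∀ w, YZ w →+ YE w) (locZ : ∀ w, 𝒰.H2 Z →+ YZ w) (locJ : ∀ w, 𝒰.H2 J →+ YE w)

omit [Fintype W] in
/-- **kernel half of (S1)**, class-formation input on the class module `C`. -/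
theorem sha2_iff_of_class (hK : ShortExact ι pw) (hpw : ∀ e, pw e = p • e) (hI : ShortExact i π')
    (hE : 𝒰.IsSmooth E) (hJ : 𝒰.IsSmooth J)
    (hCl' : ShortExact φ ψ) (hC : 𝒰.IsSmooth C) (hCl : IsPrimeToP p Cl)
    (hJ1 : ∀ x : 𝒰.H1 J, x = 0)
    (hH1C : ∀ (c : 𝒰.H1 C) (n : ℕ), p ^ n • c = 0 → c = 0)
    (hκ : ∀ w, Function.Injective (κ w))
    (hcomm : ∀ w x, κ w (locZ w x) =
      locJ w (𝒰.H2map i hI.equivariant_left (𝒰.H2map ι hK.equivariant_left x)))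
    (hJ2 : ∀ y : 𝒰.H2 J, p • y = 0 → (∀ w, locJ w y = 0) → y = 0)
    (x : 𝒰.H2 Z) :
    (∀ w, locZ w x = 0) ↔ x ∈ LinearMap.range (hK.δ₁ 𝒰 hE) :=
  S1_67.Level.sha2_iff 𝒰 κ locZ locJ hK hpw hI hE hJ hJ1
    (hC1_of_class 𝒰 hCl' hC hCl hH1C) hκ hcomm hJ2 x

/-- **cokernel half of (S1)**, class-formation inputs on the class module `C`. -/
theorem range_loc_iff_of_class (hp : p.Prime)
    (hK : ShortExact ι pw) (hpw : ∀ e, pw e = p • e) (hI : ShortExact i π')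
    (hE : 𝒰.IsSmooth E) (hJ : 𝒰.IsSmooth J)
    (hCl' : ShortExact φ ψ) (hC : 𝒰.IsSmooth C) (hCl : IsPrimeToP p Cl)
    (hH1C : ∀ (c : 𝒰.H1 C) (n : ℕ), p ^ n • c = 0 → c = 0)
    (inv : ∀ w, YE w →+ T) (invC : 𝒰.H2 C →+ T)
    (hpYZ : ∀ w (ξ : YZ w), p • ξ = 0)
    (hκ : ∀ w, Function.Injective (κ w))
    (hcomm : ∀ w x, κ w (locZ w x) =
      locJ w (𝒰.H2map i hI.equivariant_left (𝒰.H2map ι hK.equivariant_left x)))
    (hrecC : ∀ y : 𝒰.H2 J,
      invC (𝒰.H2map (φ ∘ₗ π') (hI.equivariant_right.comp hCl'.equivariant_left) y) =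
        ∑ w, inv w (locJ w y))
    (hinj : ∀ (y : 𝒰.H2 C) (n : ℕ), p ^ n • y = 0 → invC y = 0 → y = 0)
    (hJsurj : ∀ η : ∀ w, YE w, (∀ w, p • η w = 0) →
      ∃ y : 𝒰.H2 J, p • y = 0 ∧ ∀ w, locJ w y = η w)
    (ξ : ∀ w, YZ w) :
    (∃ x : 𝒰.H2 Z, ∀ w, locZ w x = ξ w) ↔ ∑ w, inv w (κ w (ξ w)) = 0 :=
  S1_67.Level.range_loc_iff' 𝒰 κ locZ locJ inv (invC' 𝒰 hCl' invC) hp hK hpw hI hE hJ
    (hC1_of_class 𝒰 hCl' hC hCl hH1C) hpYZ hκ hcomm
    (hrec_of_class 𝒰 hCl' hI.equivariant_right invC inv locJ hrecC)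
    (hinvC_of_class 𝒰 hCl' hC hCl invC hinj) hJsurj ξ

/-- reciprocity on the image of `H²(Z)`, class-formation input on the class module `C`. -/
theorem sum_inv_loc_eq_zero_of_class (hK : ShortExact ι pw) (hI : ShortExact i π')
    (hJ : 𝒰.IsSmooth J) (hCl' : ShortExact φ ψ)
    (inv : ∀ w, YE w →+ T) (invC : 𝒰.H2 C →+ T)
    (hcomm : ∀ w x, κ w (locZ w x) =
      locJ w (𝒰.H2map i hI.equivariant_left (𝒰.H2map ι hK.equivariant_left x)))
    (hrecC : ∀ y : 𝒰.H2 J,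
      invC (𝒰.H2map (φ ∘ₗ π') (hI.equivariant_right.comp hCl'.equivariant_left) y) =
        ∑ w, inv w (locJ w y))
    (x : 𝒰.H2 Z) : ∑ w, inv w (κ w (locZ w x)) = 0 :=
  S1_67.Level.sum_inv_loc_eq_zero 𝒰 κ locZ locJ inv (invC' 𝒰 hCl' invC) hK hI hJ hcomm
    (hrec_of_class 𝒰 hCl' hI.equivariant_right invC inv locJ hrecC) x

end S1

end Fermat.Agent.S55.S1Limit41.Transfer
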