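/-
S55 / L-a (P6/(S1) limit half), part C (helper41): the instantiation over `G_ℚ`,
`globalLevels S` and an open subgroup `V` of the two halves of (S1) for
`(Z, E, J, C') = (μ_p, E_S, J_S, J_S/E_S)` (helper20 `ESRep20`/`ESKummer20`, helper94
`GlobalMod94.JS`), all restricted to `↥V` with the level structure
`CD3.restrictLevels (globalLevels S) V hV`.

The arithmetic inputs that are not yet on main are NAMED hypotheses in the exact shapes in which
their owners produce them:
* the class module `C` with `0 → C' → C → Cl → 0`, `Cl` prime-to-`p` torsion (36-D helper79,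
  36e helper72 `ClassLimit72.ClassData`);
* `FiniteLevelH1 (globalLevels S) p C V` (leaf 33 at the finite levels + 36-D2);
* the invariant map `invC` on the level `H²` of `Res_V C`, injective on `p`-primary classes, and
  reciprocity `hrecC` (leaf 35 + L-d helper99);
* the semilocal facts `hJ1 hJ2 hJsurj` (52 helper94/helper64) and the local Kummer squares
  `κ locZ locJ hcomm` (49).
-/
import Fermat.Agent.S55.S1Limit41.H1Cofinal
import Fermat.Agent.S55.S1Limit41.Transfer
import Fermat.Agent.S55.GlobalMod94.JS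
import Fermat.Agent.S55.ESKummer20
import Fermat.Agent.S55.Profin15.LESNat

set_option autoImplicit false
set_option linter.unusedSectionVars false

open CategoryTheory groupCohomology ExtCitation

namespace Fermat.Agent.S55.S1Limit41.Global

open Fermat.Agent.S55.Profin15 Fermat.Agent.S55.Profin15.LevelStr Fermat.Agent.S55.CD3
open Fermat.Agent.S55.ClassLimit72 Fermat.Agent.S55.CS79.Restrict
open Fermat.Agent.S55.GlobalMod94.JS Fermat.Agent.S55.ESRep20 Fermat.Agent.S55.ESKummer20
open Fermat.Agent.S55.S1Limit41.H1Cofinal Fermat.Agent.S55.S1Limit41.Transfer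

/-- the absolute Galois group of `ℚ` -/
abbrev GQ41 : Type := AlgebraicClosure ℚ ≃ₐ[ℚ] AlgebraicClosure ℚ

variable {p : ℕ} [Fact p.Prime] (S : Finset Nat.Primes) (V : Subgroup GQ41)
  (hV : IsOpenSub (globalLevels S) V)

/-- the level structure of `V = G_{L,S}` -/
noncomputable abbrev levV : LevelStr ↥V := restrictLevels (globalLevels S) V hV

/-- `μ_p` restricted to `V` -/
noncomputable abbrev ZV (p : ℕ) [Fact p.Prime] : Rep.{0} ℤ ↥V := Rep.res V.subtype (muRep p)

/-- `E_S` restricted to `V` -/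
noncomputable abbrev EV : Rep.{0} ℤ ↥V := Rep.res V.subtype (ESRep S)

/-- `J_S` restricted to `V` -/
noncomputable abbrev JV : Rep.{0} ℤ ↥V := Rep.res V.subtype (JSp S)

/-- `C'_S = J_S / E_S` restricted to `V` -/
noncomputable abbrev CV : Rep.{0} ℤ ↥V := Rep.res V.subtype (CSp S)

theorem nonempty_of_mem (hpS : pPrime p ∈ S) : S.Nonempty := ⟨_, hpS⟩

/-- the Kummer sequence over `V` -/
theorem kummerV (hpS : pPrime p ∈ S) :
    ShortExact (A := ZV V p) (B := EV S V) (C := EV S V)
      (resLin (A := muRep p) (B := ESRep S) V.subtype (kummerι' (S := S) hpS).hom.toLinearMap)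
      (resLin (A := ESRep S) (B := ESRep S) V.subtype
        (powHom (hH := ES_galStable (S := S)) p).hom.toLinearMap) :=
  (kummer_shortExact' hpS).res V.subtype

theorem kummerV_pw (e : EV S V) :
    resLin (A := ESRep S) (B := ESRep S) V.subtype
      (powHom (hH := ES_galStable (S := S)) p).hom.toLinearMap e = p • e := rfl

/-- the idele sequence over `V` -/
theorem ideleV (hS : S.Nonempty) :
    ShortExact (A := EV S V) (B := JV S V) (C := CV S V)
      (resLin (A := ESRep S) (B := JSp S) V.subtype (ιES S).hom.toLinearMap)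
      (resLin (A := JSp S) (B := CSp S) V.subtype (πCS S).hom.toLinearMap) :=
  (shortExact_ES_JS_CS S hS).res V.subtype

theorem EV_isSmooth : (levV S V hV).IsSmooth (EV S V) := isSmooth_res (ESRep_isSmooth S) hV

theorem JV_isSmooth : (levV S V hV).IsSmooth (JV S V) := isSmooth_res (JSp_isSmooth S) hV

theorem CV_isSmooth (hS : S.Nonempty) : (levV S V hV).IsSmooth (CV S V) :=
  isSmooth_res (CSp_isSmooth S hS) hV

section Class

variable {C Cl : Rep.{0} ℤ GQ41}
  {φ : @LinearMap ℤ ℤ _ _ (RingHom.id ℤ) (CSp S) C _ _ (CSp S).hV2 C.hV2}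
  {ψ : @LinearMap ℤ ℤ _ _ (RingHom.id ℤ) C Cl _ _ C.hV2 Cl.hV2}

/-- **`hC1` over `V`** for `C'_S = J_S/E_S`: `H¹(V, C'_S)[p] = 0` from the finite-level `H¹`
vanishing for the class module. -/
theorem hC1V (hCl' : ShortExact (A := CSp S) (B := C) (C := Cl) φ ψ) (hC : (globalLevels S).IsSmooth C) (hCl : IsPrimeToP p Cl)
    (hfin : FiniteLevelH1 (globalLevels S) p C V)
    (c : (levV S V hV).H1 (CV S V)) (hc : p • c = 0) : c = 0 :=
  hC1_of_class (levV S V hV) (hCl'.res V.subtype) (isSmooth_res hC hV) hCl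
    (H1_primary_eq_zero_res hC hV p hfin) c hc

variable {W : Type*} [Fintype W] {YZ YE : W → Type*} [∀ w, AddCommGroup (YZ w)]
  [∀ w, AddCommGroup (YE w)] {T : Type*} [AddCommGroup T]
  (κ : ∀ w, YZ w →+ YE w) (locZ : ∀ w, (levV S V hV).H2 (ZV V p) →+ YZ w)
  (locJ : ∀ w, (levV S V hV).H2 (JV S V) →+ YE w)

/-- **kernel half of (S1) over `V`**: `ker (H²(V, μ_p) → ∏_w H²(V_w, μ_p)) = δ(H¹(V, E_S))`. -/
theorem sha2_iffV (hpS : pPrime p ∈ S)
    (hCl' : ShortExact (A := CSp S) (B := C) (C := Cl) φ ψ) (hC : (globalLevels S).IsSmooth C) (hCl : IsPrimeToP p Cl)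
    (hfin : FiniteLevelH1 (globalLevels S) p C V)
    (hJ1 : ∀ x : (levV S V hV).H1 (JV S V), x = 0)
    (hκ : ∀ w, Function.Injective (κ w))
    (hcomm : ∀ w x, κ w (locZ w x) =
      locJ w ((levV S V hV).H2map _ (ideleV S V (nonempty_of_mem S hpS)).equivariant_left
        ((levV S V hV).H2map _ (kummerV S V hpS).equivariant_left x)))
    (hJ2 : ∀ y : (levV S V hV).H2 (JV S V), p • y = 0 → (∀ w, locJ w y = 0) → y = 0)
    (x : (levV S V hV).H2 (ZV V p)) :
    (∀ w, locZ w x = 0) ↔
      x ∈ LinearMap.range ((kummerV S V hpS).δ₁ (levV S V hV) (EV_isSmooth S V hV)) :=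
  sha2_iff_of_class (levV S V hV) κ locZ locJ (kummerV S V hpS) (kummerV_pw S V)
    (ideleV S V (nonempty_of_mem S hpS)) (EV_isSmooth S V hV) (JV_isSmooth S V hV)
    (hCl'.res V.subtype) (isSmooth_res hC hV) hCl hJ1 (H1_primary_eq_zero_res hC hV p hfin)
    hκ hcomm hJ2 x

/-- **cokernel half of (S1) over `V`**: a family of local classes comes from `H²(V, μ_p)` iff the
sum of its invariants vanishes. -/
theorem range_loc_iffV (hpS : pPrime p ∈ S)
    (hCl' : ShortExact (A := CSp S) (B := C) (C := Cl) φ ψ) (hC : (globalLevels S).IsSmooth C) (hCl : IsPrimeToP p Cl)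
    (hfin : FiniteLevelH1 (globalLevels S) p C V)
    (inv : ∀ w, YE w →+ T) (invC : (levV S V hV).H2 (Rep.res V.subtype C) →+ T)
    (hpYZ : ∀ w (ξ : YZ w), p • ξ = 0)
    (hκ : ∀ w, Function.Injective (κ w))
    (hcomm : ∀ w x, κ w (locZ w x) =
      locJ w ((levV S V hV).H2map _ (ideleV S V (nonempty_of_mem S hpS)).equivariant_left
        ((levV S V hV).H2map _ (kummerV S V hpS).equivariant_left x)))
    (hrecC : ∀ y : (levV S V hV).H2 (JV S V),
      invC ((levV S V hV).H2map
        (resLin (A := CSp S) (B := C) V.subtype φ ∘ₗ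
          resLin (A := JSp S) (B := CSp S) V.subtype (πCS S).hom.toLinearMap)
        ((ideleV S V (nonempty_of_mem S hpS)).equivariant_right.comp
          (hCl'.res V.subtype).equivariant_left) y) = ∑ w, inv w (locJ w y))
    (hinj : ∀ (y : (levV S V hV).H2 (Rep.res V.subtype C)) (n : ℕ),
      p ^ n • y = 0 → invC y = 0 → y = 0)
    (hJsurj : ∀ η : ∀ w, YE w, (∀ w, p • η w = 0) →
      ∃ y : (levV S V hV).H2 (JV S V), p • y = 0 ∧ ∀ w, locJ w y = η w)
    (ξ : ∀ w, YZ w) :
    (∃ x : (levV S V hV).H2 (ZV V p), ∀ w, locZ w x = ξ w) ↔ ∑ w, inv w (κ w (ξ w)) = 0 :=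
  range_loc_iff_of_class (levV S V hV) κ locZ locJ (Fact.out : p.Prime) (kummerV S V hpS)
    (kummerV_pw S V) (ideleV S V (nonempty_of_mem S hpS)) (EV_isSmooth S V hV)
    (JV_isSmooth S V hV) (hCl'.res V.subtype) (isSmooth_res hC hV) hCl
    (H1_primary_eq_zero_res hC hV p hfin) inv invC hpYZ hκ hcomm hrecC hinj hJsurj ξ

end Class

end Fermat.Agent.S55.S1Limit41.Global
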