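/-
S55 / L-a, part D (helper41): THE LIMIT FORMATION DATUM (slot A3,
`CDArith63.P1Chain.HasFormationDatum p S V hV`) FROM A CLASS FORMATION ON THE TRUE CLASS MODULE.

The finite-level class field theory (leaves 31/32/33/35 in the D2 model) lives on the layers of
`Q_Sˣ → J_S × I^S → C_S` (the class module `C = CSlim S (diagJ S)`, helper79), NOT on the layers
of `E_S → J_S → C'_S = J_S/E_S` (the sequence of (P1), helper63/helper94).  The two are compared in
the limit along `0 → C' → C → Cl → 0` with `Cl` prime-to-`p` torsion (helper72 `ClassLimit72`):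
on `p`-primary classes `H¹(C') = 0 ⇐ H¹(C)(p) = 0` and `H²(C') ↪ H²(C)`.

* `exists_formation_inv_of_class` (generic `G`, `𝒰`): `p`-primary local invariants `invJp w` on
  level `H²(J)` (jointly injective/surjective) and a `p`-primary invariant `invCp` on level
  `H²(C)` of the CLASS MODULE, injective, with `invCp ∘ (φ ∘ π')_* = ∑_w invJp w`, give TOTAL
  maps `invJ w`, `invC'` on `H²(J)`, `H²(C')` with the four binders
  `hinj hsurj hinjC hcompat` of `CDArith63.GlobalForm.formation_res` verbatim.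
* `hasFormationDatum_of_class`: the instantiation over `G_ℚ`, `globalLevels S`, open `V`:
  `HasFormationDatum p S V hV` literally.
-/
import Fermat.Agent.S55.S1Limit41.Global
import Fermat.Agent.S55.PrimaryExt14
import Fermat.Agent.S55.LimDesc99.TransferLevel
import Fermat.Agent.S55.CDArith63.P1Chain

set_option autoImplicit false
set_option linter.unusedSectionVars false

universe u

open CategoryTheory groupCohomology ExtCitation

namespace Fermat.Agent.S55.S1Limit41.Formation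

open Fermat.Agent.S55.Profin15 Fermat.Agent.S55.Profin15.LevelStr
open Fermat.Agent.S55.ClassLimit72 Fermat.Agent.S55.PrimaryExt14

section Generic

variable {k G : Type u} [CommRing k] [Group G] (𝒰 : LevelStr G) (p : ℕ) [Fact p.Prime]
variable {J C' C Cl : Rep.{u} k G} {π' : J →ₗ[k] C'} {φ : C' →ₗ[k] C} {ψ : C →ₗ[k] Cl}
variable {T : Type*} [AddCommGroup T] {W : Type*} [Fintype W]

/-- `H2map` only depends on the underlying map -/
theorem H2map_congr' {A B : Rep.{u} k G} {σ τ : A →ₗ[k] B} (hσ : IsEquivariant σ)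
    (hτ : IsEquivariant τ) (hστ : σ = τ) (x : 𝒰.H2 A) : 𝒰.H2map σ hσ x = 𝒰.H2map τ hτ x := by
  subst hστ
  rfl

/-- **The formation invariants of `(J, C' = J/E)` from a class formation on the class module
`C`** (`0 → C' → C → Cl → 0`, `Cl` prime-to-`p` torsion). -/
theorem exists_formation_inv_of_class (h : ShortExact φ ψ) (hπ' : IsEquivariant π')
    (hC : 𝒰.IsSmooth C) (hCl : IsPrimeToP p Cl)
    (invJp : W → (primary p (𝒰.H2 J) →+ T))
    (hinjp : ∀ x : primary p (𝒰.H2 J), (∀ w, invJp w x = 0) → x = 0)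
    (hsurjp : ∀ (t : W → T) (n : ℕ), (∀ w, (p ^ n) • t w = 0) →
      ∃ x : primary p (𝒰.H2 J), (p ^ n) • x = 0 ∧ ∀ w, invJp w x = t w)
    (invCp : primary p (𝒰.H2 C) →+ T)
    (hinjCp : ∀ c : primary p (𝒰.H2 C), invCp c = 0 → c = 0)
    (hcompatp : ∀ x : primary p (𝒰.H2 J),
      invCp (mapPrimary p
        (𝒰.H2map (φ ∘ₗ π') (hπ'.comp h.equivariant_left)).toAddMonoidHom x) = ∑ w, invJp w x) :
    ∃ (invJ : W → (𝒰.H2 J →+ T)) (invC' : 𝒰.H2 C' →+ T),
      (∀ w (x : primary p (𝒰.H2 J)), invJ w (x : 𝒰.H2 J) = invJp w x) ∧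
      (∀ (x : 𝒰.H2 J) (n : ℕ), (p ^ n) • x = 0 → (∀ w, invJ w x = 0) → x = 0) ∧
      (∀ (t : W → T) (n : ℕ), (∀ w, (p ^ n) • t w = 0) →
        ∃ x : 𝒰.H2 J, (p ^ n) • x = 0 ∧ ∀ w, invJ w x = t w) ∧
      (∀ (y : 𝒰.H2 C') (n : ℕ), (p ^ n) • y = 0 → invC' y = 0 → y = 0) ∧
      (∀ x : 𝒰.H2 J, invC' (𝒰.H2map π' hπ' x) = ∑ w, invJ w x) := by
  set fφ : 𝒰.H2 C' →+ 𝒰.H2 C := (𝒰.H2map φ h.equivariant_left).toAddMonoidHom with hfφ
  set fπ : 𝒰.H2 J →+ 𝒰.H2 C' := (𝒰.H2map π' hπ').toAddMonoidHom with hfπ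
  have hinjC'p : ∀ y : primary p (𝒰.H2 C'), (invCp.comp (mapPrimary p fφ)) y = 0 → y = 0 := by
    intro y hy
    have h1 := hinjCp _ hy
    obtain ⟨n, hn⟩ := y.2
    apply Subtype.ext
    refine H2map_eq_zero_of_primary 𝒰 h hC hCl y.1 n hn ?_
    have h2 : ((mapPrimary p fφ y : primary p (𝒰.H2 C)) : 𝒰.H2 C) = 0 := by
      rw [h1]
      rfl
    exact h2
  have hcomp' : ∀ x : primary p (𝒰.H2 J),
      (invCp.comp (mapPrimary p fφ)) (mapPrimary p fπ x) = ∑ w, invJp w x := by
    intro x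
    rw [← hcompatp x]
    show invCp (mapPrimary p fφ (mapPrimary p fπ x)) = _
    congr 1
    apply Subtype.ext
    show 𝒰.H2map φ h.equivariant_left (𝒰.H2map π' hπ' x.1) = 𝒰.H2map (φ ∘ₗ π') _ x.1
    rw [← H2map_comp]
  obtain ⟨invJ, invC, h1, -, h3, h4, h5, h6⟩ :=
    exists_total_inv p (LimDesc99.H2_torsion15 (𝒰 := 𝒰) J) (LimDesc99.H2_torsion15 (𝒰 := 𝒰) C')
      fπ invJp (invCp.comp (mapPrimary p fφ)) hinjp hsurjp hinjC'p hcomp'
  exact ⟨invJ, invC, h1, h3, h4, h5, h6⟩

end Generic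

/-! ### the instantiation over `G_ℚ`, `globalLevels S`, open `V` -/

section Concrete

open Fermat.Agent.S55.CD3 Fermat.Agent.S55.CS79.Restrict Fermat.Agent.S55.CS79.Primary
open Fermat.Agent.S55.GlobalMod94.JS Fermat.Agent.S55.ESRep20
open Fermat.Agent.S55.CDArith63 Fermat.Agent.S55.CDArith63.P1Chain
open Fermat.Agent.S55.CDArith63.Adapter Fermat.Agent.S55.QZ33
open Fermat.Agent.S55.S1Limit41.Global Fermat.Agent.S55.S1Limit41.Transfer

variable {p : ℕ} [Fact p.Prime] (S : Finset Nat.Primes) (V : Subgroup GQ41)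
  (hV : IsOpenSub (globalLevels S) V)
variable {C Cl : Rep.{0} ℤ GQ41}
  {φ : @LinearMap ℤ ℤ _ _ (RingHom.id ℤ) (CSp S) C _ _ (CSp S).hV2 C.hV2}
  {ψ : @LinearMap ℤ ℤ _ _ (RingHom.id ℤ) C Cl _ _ C.hV2 Cl.hV2}
  {a : @LinearMap ℤ ℤ _ _ (RingHom.id ℤ) (JSp S) C _ _ (JSp S).hV2 C.hV2}

/-- **Slot A3 (`HasFormationDatum p S V hV`) from a class formation on the class module `C`
restricted to `V`.**  Inputs:
* the comparison `0 → C'_S → C → Cl → 0`, `Cl` prime-to-`p` torsion, `a = φ ∘ π : J_S → C`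
  (helper72 `ClassData72`: `C = CSlim S (diagJ S)`, `a j = [(j, 0)]`);
* `p`-primary local invariants `invJp w` on level `H²(V, J_S)`, jointly injective and surjective
  (52 + 22b);
* a `p`-primary invariant `invCp` on level `H²(V, C)`, injective, with
  `invCp ∘ a_* = ∑_w invJp w` (35 in the D2 model + L-d `LimDesc99.exists_invCp_of_layers`);
* `H¹(V, C)(p) = 0` (33 + 36-D2: `Adapt77.GlobalCofinal.h1PrimaryVanishes_global`);
* `H³(V, J_S)[p] = 0` (52/36b: `GlobalMod94.H3.h3Vanishes_JSp`). -/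
theorem hasFormationDatum_of_class
    (hCl' : ShortExact (A := CSp S) (B := C) (C := Cl) φ ψ) (hC : (globalLevels S).IsSmooth C)
    (hCl : IsPrimeToP p Cl) (haeq : IsEquivariant (A := JSp S) (B := C) a)
    (ha : ∀ j : JSp S, φ ((πCS S).hom j) = a j)
    {W : Type} [Fintype W] [Nonempty W]
    (invJp : W → (primary p ((levV S V hV).H2 (JV S V)) →+ QZ))
    (hinjp : ∀ x : primary p ((levV S V hV).H2 (JV S V)), (∀ w, invJp w x = 0) → x = 0)
    (hsurjp : ∀ (t : W → QZ) (n : ℕ), (∀ w, (p ^ n) • t w = 0) →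
      ∃ x : primary p ((levV S V hV).H2 (JV S V)), (p ^ n) • x = 0 ∧ ∀ w, invJp w x = t w)
    (invCp : primary p ((levV S V hV).H2 (Rep.res V.subtype C)) →+ QZ)
    (hinjCp : ∀ c : primary p ((levV S V hV).H2 (Rep.res V.subtype C)), invCp c = 0 → c = 0)
    (hcompatp : ∀ x : primary p ((levV S V hV).H2 (JV S V)),
      invCp (mapPrimary p ((levV S V hV).H2map (resLin (A := JSp S) (B := C) V.subtype a)
        (haeq.res V.subtype)).toAddMonoidHom x) = ∑ w, invJp w x)
    (hH1C : H1PrimaryVanishes (levV S V hV) p (Rep.res V.subtype C))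
    (hH3J : H3TorsVan (restrictLevels (globalLevels S) V hV) p (resSub (canρ (JSp S)) V)) :
    HasFormationDatum p S V hV := by
  have hπ' := (isEquivariant_hom (πCS S)).res V.subtype
  have hres := hCl'.res V.subtype
  have hsm := isSmooth_res hC hV
  obtain ⟨invJ, invC, -, h2, h3, h4, h5⟩ :=
    exists_formation_inv_of_class (levV S V hV) p hres hπ' hsm hCl invJp hinjp hsurjp invCp hinjCp
      (by
        intro x
        rw [← hcompatp x]
        congr 1
        apply Subtype.ext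
        refine H2map_congr' (levV S V hV) _ _ ?_ x.1
        exact DFunLike.ext _ _ fun j => ha j)
  refine ⟨W, inferInstance, inferInstance, invJ, invC, h2, h3, h4, h5, ?_, hH3J⟩
  intro y n hy
  exact hC1_primary_of_class (levV S V hV) hres hsm hCl (fun c n hc => hH1C c ⟨n, hc⟩) y n hy

end Concrete

end Fermat.Agent.S55.S1Limit41.Formation
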